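import Fermat.Agent.QuaternionApprox.Lifting
import Fermat.Agent.CocompactHurwitz.Normalizer
import Fermat.Agent.HeckeH1.SLMod

/-!
# The principal congruence subgroups of prime level

The subgroup of level `p` is the kernel of the map onto `SL₂ (ℤ / p)`, of index `p (p ^ 2 - 1)`,
and has no elliptic elements, as an elliptic trace is congruent to `2` only if it equals `2`.
-/

set_option autoImplicit false
set_option linter.unusedSectionVars false
set_option linter.style.haveILetI false

noncomputable section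

open Matrix
open UpperHalfPlane hiding I
open scoped MatrixGroups Real
open FA.Horocycle FA.QuaternionHecke FA.CocompactForms FA.CocompactDegree

namespace FA.QuaternionApprox

instance discreteTopology_level (M : ℕ) : DiscreteTopology (level M) :=
  DiscreteTopology.of_continuous_injective
    (f := Subgroup.inclusion (level_le M))
    (continuous_subtype_val.subtype_mk _) (Subgroup.inclusion_injective _)

variable (p : ℕ) [hp : Fact p.Prime] (hp5 : 5 ≤ p)

include hp5 in
theorem redSL_surjective : Function.Surjective (redSL p hp5) := fun a => by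
  obtain ⟨γ, -, h⟩ : a ∈ levelImage p hp5 1 := by
    rw [levelImage_eq_top p hp5 one_pos (Nat.coprime_one_left p)]
    exact Subgroup.mem_top a
  exact ⟨γ, h⟩

include hp5 in
theorem ker_redSL : (redSL p hp5).ker = (level p).subgroupOf orderUnits := by
  ext γ
  rw [MonoidHom.mem_ker, Subgroup.mem_subgroupOf, mem_level]
  refine ⟨fun h => ⟨γ.2, ?_⟩, fun h => Subtype.ext ?_⟩
  · exact (toMod_eq_iff p hp5 (unitElem γ) 1).1
      ((congrArg Subtype.val h).trans (map_one (toMod p hp5)).symm)
  · exact ((toMod_eq_iff p hp5 (unitElem γ) 1).2 h.2).trans (map_one (toMod p hp5))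

include hp5 in
theorem relIndex_level : (level p).relIndex orderUnits = p * (p ^ 2 - 1) := by
  rw [Subgroup.relIndex, ← ker_redSL p hp5, Subgroup.index_ker,
    MonoidHom.range_eq_top.2 (redSL_surjective p hp5), Subgroup.card_top]
  have h := HeckeH1.card_SLF (F := ZMod p)
  rw [Nat.card_zmod] at h
  refine h.trans ?_
  rw [mul_assoc, mul_comm (p - 1), ← Nat.sq_sub_sq, one_pow]

include hp5 in
theorem level_prime_normal : ((level p).subgroupOf orderUnits).Normal := by
  rw [← ker_redSL p hp5]
  infer_instance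

include hp5 in
theorem compactSpace_level : CompactSpace (SL(2, ℝ) ⧸ level p) :=
  CocompactHurwitz.compactSpace_of_relIndex (H := orderUnits) (by
    rw [relIndex_level p hp5]
    exact Nat.mul_ne_zero hp.out.ne_zero
      (Nat.sub_ne_zero_of_lt (Nat.one_lt_pow two_ne_zero hp.out.one_lt)))

include hp5 in
theorem level_free :
    ∀ γ ∈ level p, ∀ z : ℍ, γ • z = z → γ = 1 ∨ γ = -1 := by
  intro γ hγ z hz
  obtain ⟨T, hT⟩ := exists_trace hγ.1
  have hdvd : (p : ℤ) ∣ T - 2 :=
    congr_trace_dvd hγ.2 hT (T' := 2) (by simp)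
  rw [UpperHalfPlane.ext_iff, coe_smul_eq_mob, mob, div_eq_iff (jac_ne_zero γ z.im_ne_zero),
    jac] at hz
  have hre := congrArg Complex.re hz
  have him := congrArg Complex.im hz
  simp at hre him
  set x := z.re
  set y := z.im
  have hy : 0 < y := z.im_pos
  have hlin : γ 0 0 - γ 1 1 = 2 * γ 1 0 * x :=
    mul_right_cancel₀ hy.ne' (by linear_combination him)
  have hb : γ 0 1 = -(γ 1 0) * (x ^ 2 + y ^ 2) := by linear_combination hre - x * hlin
  rw [trace_fin_two] at hT
  have hdet := γ.prop
  rw [Matrix.det_fin_two] at hdet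
  have hdisc : (T : ℝ) ^ 2 + 4 * (γ 1 0 * y) ^ 2 = 4 := by
    rw [← hT]
    linear_combination 4 * hdet + (γ 0 0 - γ 1 1 + 2 * γ 1 0 * x) * hlin + 4 * γ 1 0 * hb
  have hT4 : T ^ 2 ≤ 4 := by
    exact_mod_cast (by nlinarith [sq_nonneg (γ 1 0 * y)] : (T : ℝ) ^ 2 ≤ 4)
  have hT2 : T = 2 := by
    by_contra hne
    have h1 : T ≤ 2 := by nlinarith
    have h2 : -2 ≤ T := by nlinarith
    have hdvd' : (p : ℤ) ∣ 2 - T := by
      rw [← neg_sub]
      exact hdvd.neg_right
    have := Int.le_of_dvd (by omega) hdvd'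
    omega
  have hc : γ 1 0 = 0 := by
    rw [hT2] at hdisc
    have h : (γ 1 0 * y) ^ 2 = 0 := by push_cast at hdisc; linarith
    exact (mul_eq_zero.1 (pow_eq_zero_iff two_ne_zero |>.1 h)).resolve_right hy.ne'
  refine CocompactHurwitz.eq_one_or_neg_one.1 fun w => ?_
  rw [UpperHalfPlane.ext_iff, coe_smul_eq_mob, mob, div_eq_iff (jac_ne_zero γ w.im_ne_zero), jac,
    hc, show γ 0 1 = 0 by rw [hb, hc]; ring, show γ 0 0 = γ 1 1 by rw [hc] at hlin; linarith]
  push_cast
  ring

include hp5 in
theorem level_genus :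
    ∃ g : ℕ, 2 ≤ g ∧ area (level p) = 4 * π * ((g : ℝ) - 1) ∧
      p * (p ^ 2 - 1) ≤ 2 * (84 * (g - 1)) := by
  haveI := compactSpace_level p hp5
  obtain ⟨g, hg2, hg⟩ := CocompactHurwitz.exists_genus_of_free (level_free p hp5)
  refine ⟨g, hg2, hg, ?_⟩
  have h := CocompactHurwitz.hurwitz_inequality (level_le p) hg
  rw [relIndex_level p hp5] at h
  exact ((Nat.le_mul_of_pos_left _ (trivCard_pos (level p))).trans h).trans
    (Nat.mul_le_mul_right _ CocompactHurwitz.trivCard_le_two)

end FA.QuaternionApprox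

end
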