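import Fermat.Agent.QuaternionApprox.Surjective
import Mathlib.Data.Nat.Choose.Dvd
import Mathlib.Data.Nat.Factorization.Induction

/-!
# Strong approximation

A `p ^ k`-th power of a lift of a nilpotent `N` is `1 + p ^ k N` to the next order, so surjectivity
modulo `p` lifts to prime powers, and coprime moduli combine.
-/

set_option autoImplicit false
set_option linter.unusedSectionVars false
set_option linter.style.haveILetI false

noncomputable section

open Matrix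
open scoped MatrixGroups
open FA.Horocycle FA.QuaternionHecke

namespace FA.QuaternionApprox

theorem one_add_pow_expand {R : Type*} [Ring R] (X : R) (m : ℕ) :
    ∃ S : R, (1 + X) ^ m = 1 + m • X + m.choose 2 • (X * X) + m.choose 3 • (X * X * X) +
      (X * X) * (X * X) * S := by
  induction m with
  | zero => exact ⟨0, by simp⟩
  | succ m ih =>
    obtain ⟨S, hS⟩ := ih
    refine ⟨S + S * X + m.choose 3 • 1, ?_⟩
    rw [pow_succ, hS, Nat.choose_succ_succ' m 1, Nat.choose_succ_succ' m 2, Nat.choose_one_right]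
    simp only [mul_add, add_mul, one_mul, mul_one, smul_mul_assoc, mul_smul_comm, add_smul,
      one_smul, mul_assoc]
    abel

theorem congr_trace_dvd {m : ℕ} {x y : Matrix (Fin 2) (Fin 2) ℝ} {T T' : ℤ} (h : Congr m x y)
    (hT : x.trace = T) (hT' : y.trace = T') : (m : ℤ) ∣ T - T' := by
  obtain ⟨w, hw, e⟩ := h
  obtain ⟨W, hW⟩ := exists_trace hw
  have e' := congrArg Matrix.trace e
  rw [trace_sub, trace_smul, hT, hT', hW, smul_eq_mul] at e'
  exact ⟨W, by exact_mod_cast e'⟩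

variable (p : ℕ) [hp : Fact p.Prime] (hp5 : 5 ≤ p)

include hp5 in
theorem exists_level_unipotent {M : ℕ} (hM : 0 < M) (hMp : M.Coprime p)
    {N : Matrix (Fin 2) (Fin 2) (ZMod p)} (hN : N * N = 0) (hdet : (1 + N).det = 1) (k : ℕ) :
    ∃ η ∈ level M, ∃ w : order, (η : Matrix (Fin 2) (Fin 2) ℝ) =
      1 + ((p ^ k : ℕ) : ℝ) • (w : Matrix (Fin 2) (Fin 2) ℝ) ∧ toMod p hp5 w = N := by
  let a : SL(2, ZMod p) := ⟨1 + N, hdet⟩
  obtain ⟨γ, hγ, hγN⟩ : a ∈ levelImage p hp5 M := by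
    rw [levelImage_eq_top p hp5 hM hMp]
    exact Subgroup.mem_top a
  have hγN' : toMod p hp5 (unitElem γ) = 1 + N := congrArg Subtype.val hγN
  have key : ∀ j : ℕ, ∃ w : order,
      unitElem γ ^ (p ^ j) = 1 + (p ^ j) • w ∧ toMod p hp5 w = N := by
    intro j
    induction j with
    | zero =>
      exact ⟨unitElem γ - 1, by simp, by rw [map_sub, map_one, hγN', add_sub_cancel_left]⟩
    | succ j ih =>
      obtain ⟨w, hw, hwN⟩ := ih
      obtain ⟨v, hv, hwv⟩ := (toMod_eq_zero_iff p hp5 (w * w)).1 (by rw [map_mul, hwN, hN])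
      have hww : w * w = p • (⟨v, hv⟩ : order) := by
        refine Subtype.ext ?_
        rw [sub_zero] at hwv
        rw [hwv, AddSubmonoidClass.coe_nsmul, Nat.cast_smul_eq_nsmul]
      set c₂ := p.choose 2 / p
      set c₃ := p.choose 3 / p
      have h2 : p.choose 2 = p * c₂ :=
        (Nat.mul_div_cancel' (Nat.Prime.dvd_choose_self hp.out two_ne_zero (by omega))).symm
      have h3 : p.choose 3 = p * c₃ :=
        (Nat.mul_div_cancel' (Nat.Prime.dvd_choose_self hp.out (by norm_num) (by omega))).symm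
      set P : ℕ := p ^ j with hP
      obtain ⟨S, hS⟩ := one_add_pow_expand (P • w) p
      set V : order := ⟨v, hv⟩
      refine ⟨w + p • ((c₂ * P) • V + (c₃ * (P * P)) • (V * w) + (P * (P * P)) • (V * V * S)),
        ?_, ?_⟩
      · rw [pow_succ, pow_mul, hw, hS, h2, h3]
        have e1 : P • w * P • w = (P * P * p) • V := by
          rw [smul_mul_assoc, mul_smul_comm, hww, smul_smul, smul_smul]
        rw [e1]
        simp only [smul_mul_assoc, mul_smul_comm, smul_smul, smul_add, ← hP]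
        module
      · rw [map_add, hwN, map_nsmul, ← Nat.cast_smul_eq_nsmul (ZMod p), ZMod.natCast_self,
          zero_smul, add_zero]
  obtain ⟨w, hw, hwN⟩ := key k
  refine ⟨((γ ^ (p ^ k) : orderUnits) : SL(2, ℝ)), Subgroup.pow_mem
    ((level M).subgroupOf orderUnits) hγ _, w, ?_, hwN⟩
  rw [← map_pow] at hw
  have e := congrArg (fun x : order => (x : Matrix (Fin 2) (Fin 2) ℝ)) hw
  simp only [Subring.coe_add, Subring.coe_one, AddSubmonoidClass.coe_nsmul,
    ← Nat.cast_smul_eq_nsmul ℝ] at e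
  exact e

include hp5 in
theorem exists_level_next {M : ℕ} (hM : 0 < M) (hMp : M.Coprime p) {k : ℕ} (hk : 0 < k)
    {z : Matrix (Fin 2) (Fin 2) (ZMod p)} (hz : z.trace = 0) :
    ∃ η ∈ level M, ∃ w : order, (η : Matrix (Fin 2) (Fin 2) ℝ) =
      1 + ((p ^ k : ℕ) : ℝ) • (w : Matrix (Fin 2) (Fin 2) ℝ) ∧ toMod p hp5 w = z := by
  rw [trace_fin_two] at hz
  obtain ⟨η₁, h₁, w₁, e₁, f₁⟩ := exists_level_unipotent p hp5 hM hMp
    (N := z 0 0 • !![1, -1; 1, -1]) (by
      ext i j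
      fin_cases i <;> fin_cases j <;> simp [Matrix.mul_apply, Fin.sum_univ_two])
    (by simp [det_fin_two]; ring) k
  obtain ⟨η₂, h₂, w₂, e₂, f₂⟩ := exists_level_unipotent p hp5 hM hMp
    (N := !![0, z 0 1 + z 0 0; 0, 0]) (by
      ext i j
      fin_cases i <;> fin_cases j <;> simp [Matrix.mul_apply, Fin.sum_univ_two])
    (by simp [det_fin_two]) k
  obtain ⟨η₃, h₃, w₃, e₃, f₃⟩ := exists_level_unipotent p hp5 hM hMp
    (N := !![0, 0; z 1 0 - z 0 0, 0]) (by
      ext i j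
      fin_cases i <;> fin_cases j <;> simp [Matrix.mul_apply, Fin.sum_univ_two])
    (by simp [det_fin_two]) k
  refine ⟨η₁ * η₂ * η₃, mul_mem (mul_mem h₁ h₂) h₃,
    w₁ + w₂ + w₃ + (p ^ k : ℕ) • (w₁ * w₂ + w₁ * w₃ + w₂ * w₃ + (p ^ k : ℕ) • (w₁ * w₂ * w₃)),
    ?_, ?_⟩
  · show (η₁ : Matrix (Fin 2) (Fin 2) ℝ) * η₂ * η₃ = _
    rw [e₁, e₂, e₃]
    simp only [Subring.coe_add, Subring.coe_mul, AddSubmonoidClass.coe_nsmul,
      ← Nat.cast_smul_eq_nsmul ℝ, Matrix.mul_add, Matrix.add_mul, Matrix.one_mul, Matrix.mul_one,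
      Matrix.smul_mul, Matrix.mul_smul, smul_add]
    abel
  · simp only [map_add, map_nsmul, f₁, f₂, f₃, ← Nat.cast_smul_eq_nsmul (ZMod p), Nat.cast_pow,
      ZMod.natCast_self, zero_pow hk.ne', zero_smul, add_zero]
    ext i j
    fin_cases i <;> fin_cases j <;> simp
    linear_combination -hz

include hp5 in
theorem approx_prime_pow {M : ℕ} (hM : 0 < M) (hMp : M.Coprime p) (k : ℕ) :
    ∀ x ∈ order, ∀ N : ℤ, Matrix.det x = N → ((p ^ (k + 1) : ℕ) : ℤ) ∣ N - 1 →
      ∃ γ ∈ level M, Congr (p ^ (k + 1)) (γ : Matrix (Fin 2) (Fin 2) ℝ) x := by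
  induction k with
  | zero =>
    intro x hx N hN hdvd
    rw [zero_add, pow_one] at hdvd
    have hdet : (toMod p hp5 ⟨x, hx⟩).det = 1 := by
      have h := (ZMod.intCast_zmod_eq_zero_iff_dvd _ p).2 hdvd
      rw [Int.cast_sub, Int.cast_one, sub_eq_zero] at h
      rw [det_toMod p hp5 _ hN, h]
    let a : SL(2, ZMod p) := ⟨_, hdet⟩
    obtain ⟨γ, hγ, e⟩ : a ∈ levelImage p hp5 M := by
      rw [levelImage_eq_top p hp5 hM hMp]
      exact Subgroup.mem_top a
    refine ⟨γ, hγ, ?_⟩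
    rw [zero_add, pow_one]
    exact (toMod_eq_iff p hp5 (unitElem γ) ⟨x, hx⟩).1 (congrArg Subtype.val e)
  | succ k ih =>
    intro x hx N hN hdvd
    obtain ⟨γ, hγ, hc⟩ := ih x hx N hN
      (dvd_trans (by exact_mod_cast pow_dvd_pow p (Nat.le_succ _)) hdvd)
    set y := Matrix.adjugate (γ : Matrix (Fin 2) (Fin 2) ℝ) * x with hy
    have hyO : y ∈ order := mul_mem (adjugate_mem hγ.1) hx
    have hy1 : Congr (p ^ (k + 1)) y 1 := by
      have h := (Congr.refl (p ^ (k + 1))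
        (Matrix.adjugate (γ : Matrix (Fin 2) (Fin 2) ℝ))).mul hc.symm (adjugate_mem hγ.1) hx
      rwa [Matrix.adjugate_mul, γ.prop, one_smul] at h
    obtain ⟨z, hz, hyz⟩ := hy1
    rw [sub_eq_iff_eq_add'] at hyz
    obtain ⟨Q, hQ⟩ := exists_det hz
    obtain ⟨T, hT⟩ := exists_trace hz
    have hdy : y.det = N := by
      rw [hy, det_mul, det_adjugate, γ.prop, hN, one_pow, one_mul]
    have e : ((N : ℤ) : ℝ) = 1 + ((p ^ (k + 1) : ℕ) : ℝ) * T +
        ((p ^ (k + 1) : ℕ) : ℝ) ^ 2 * Q := by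
      rw [← hdy, hyz, ← hT, ← hQ]
      simp [det_fin_two, trace_fin_two]
      ring
    have e' : N = 1 + ((p ^ (k + 1) : ℕ) : ℤ) * T + ((p ^ (k + 1) : ℕ) : ℤ) ^ 2 * Q := by
      exact_mod_cast e
    have htr : (toMod p hp5 ⟨z, hz⟩).trace = 0 := by
      rw [trace_toMod p hp5 _ hT, ZMod.intCast_zmod_eq_zero_iff_dvd]
      obtain ⟨c, hc⟩ := hdvd
      refine ⟨c - (p : ℤ) ^ k * Q, mul_left_cancel₀
        (pow_ne_zero (k + 1) (Int.natCast_ne_zero.2 hp.out.ne_zero)) ?_⟩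
      rw [e'] at hc
      push_cast at hc
      linear_combination hc
    obtain ⟨η, hη, w, hηw, hwz⟩ := exists_level_next p hp5 hM hMp k.succ_pos htr
    obtain ⟨v, hv, hwv⟩ := (toMod_eq_iff p hp5 w ⟨z, hz⟩).1 hwz
    refine ⟨γ * η, mul_mem hγ hη, ?_⟩
    have h : Congr (p ^ (k + 1 + 1)) (η : Matrix (Fin 2) (Fin 2) ℝ) y := by
      refine ⟨v, hv, ?_⟩
      rw [hηw, hyz, add_sub_add_left_eq_sub, ← smul_sub, hwv, smul_smul]
      push_cast
      rw [pow_succ _ (k + 1)]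
    have h' := (Congr.refl _ (γ : Matrix (Fin 2) (Fin 2) ℝ)).mul h hγ.1 hη.1
    rw [hy, ← Matrix.mul_assoc, Matrix.mul_adjugate, γ.prop, one_smul, Matrix.one_mul] at h'
    exact h'

/-- **Strong approximation.** -/
theorem approx_aux (n : ℕ) : 0 < n → n.Coprime 6 → ∀ M : ℕ, 0 < M → M.Coprime n →
    ∀ x ∈ order, ∀ N : ℤ, Matrix.det x = N → (n : ℤ) ∣ N - 1 →
      ∃ γ ∈ level M, Congr n (γ : Matrix (Fin 2) (Fin 2) ℝ) x := by
  induction n using Nat.recOnPrimeCoprime with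
  | zero => intro h; exact absurd h (lt_irrefl 0)
  | prime_pow q i hq =>
    intro _ h6 M hM hMn x hx N hN hdvd
    cases i with
    | zero =>
      exact ⟨1, one_mem _, by rw [pow_zero]; exact Congr.of_mem (by simp [one_mem]) hx⟩
    | succ i =>
      haveI : Fact q.Prime := ⟨hq⟩
      have h6' : q.Coprime 6 := (Nat.coprime_pow_left_iff i.succ_pos _ _).1 h6
      have hq5 : 5 ≤ q := by
        by_contra hlt
        have := hq.two_le
        interval_cases q <;> norm_num at h6'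
      exact approx_prime_pow q hq5 hM ((Nat.coprime_pow_right_iff i.succ_pos _ _).1 hMn) i x hx N
        hN hdvd
  | coprime a b ha hb hab iha ihb =>
    intro _ h6 M hM hMn x hx N hN hdvd
    have h6a := h6.coprime_dvd_left (dvd_mul_right a b)
    have h6b := h6.coprime_dvd_left (dvd_mul_left b a)
    have hMa := hMn.coprime_dvd_right (dvd_mul_right a b)
    have hMb := hMn.coprime_dvd_right (dvd_mul_left b a)
    push_cast at hdvd
    obtain ⟨γ₁, hγ₁, c₁⟩ := iha (by omega) h6a (M * b) (Nat.mul_pos hM (by omega))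
      (hMa.mul_left hab.symm) x hx N hN (dvd_trans (dvd_mul_right _ _) hdvd)
    set y := Matrix.adjugate (γ₁ : Matrix (Fin 2) (Fin 2) ℝ) * x with hy
    have hyO : y ∈ order := mul_mem (adjugate_mem hγ₁.1) hx
    obtain ⟨γ₂, hγ₂, c₂⟩ := ihb (by omega) h6b (M * a) (Nat.mul_pos hM (by omega))
      (hMb.mul_left hab) y hyO N
      (by rw [hy, det_mul, det_adjugate, γ₁.prop, hN, one_pow, one_mul])
      (dvd_trans (dvd_mul_left _ _) hdvd)
    refine ⟨γ₁ * γ₂, mul_mem (level_mono (dvd_mul_right M b) hγ₁)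
      (level_mono (dvd_mul_right M a) hγ₂), ?_⟩
    show Congr (a * b) ((γ₁ : Matrix (Fin 2) (Fin 2) ℝ) * γ₂) x
    refine Congr.combine hab ?_ ?_
    · simpa using c₁.mul (hγ₂.2.of_dvd (dvd_mul_left a M)) hx hγ₂.1
    · have h := (Congr.refl b (γ₁ : Matrix (Fin 2) (Fin 2) ℝ)).mul c₂ hγ₁.1 hγ₂.1
      rwa [hy, ← Matrix.mul_assoc, Matrix.mul_adjugate, γ₁.prop, one_smul, Matrix.one_mul] at h

include hp5 in
theorem exists_trace_prime_pow (r : ℤ) (k : ℕ) :
    ∃ x : order, ∃ N T : ℤ, (x : Matrix (Fin 2) (Fin 2) ℝ).det = N ∧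
      (x : Matrix (Fin 2) (Fin 2) ℝ).trace = T ∧ ((p ^ (k + 1) : ℕ) : ℤ) ∣ N - 1 ∧
      ((p ^ (k + 1) : ℕ) : ℤ) ∣ T - r ∧ toMod p hp5 x = !![0, -1; 1, (r : ZMod p)] := by
  induction k with
  | zero =>
    obtain ⟨x, hx⟩ := toMod_surjective p hp5 !![0, -1; 1, (r : ZMod p)]
    obtain ⟨N, hN⟩ := exists_det x.2
    obtain ⟨T, hT⟩ := exists_trace x.2
    refine ⟨x, N, T, hN, hT, ?_, ?_, hx⟩
    · rw [zero_add, pow_one, ← ZMod.intCast_zmod_eq_zero_iff_dvd, Int.cast_sub,
        ← det_toMod p hp5 x hN, hx]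
      simp
    · rw [zero_add, pow_one, ← ZMod.intCast_zmod_eq_zero_iff_dvd, Int.cast_sub,
        ← trace_toMod p hp5 x hT, hx]
      simp [trace_fin_two]
  | succ k ih =>
    obtain ⟨x, N, T, hN, hT, ⟨a, ha⟩, ⟨b, hb⟩, hx⟩ := ih
    obtain ⟨z, hz⟩ := toMod_surjective p hp5
      !![-(b : ZMod p), (a : ZMod p) - (r : ZMod p) * b; 0, 0]
    obtain ⟨Q, hQ⟩ := exists_det z.2
    obtain ⟨S, hS⟩ := exists_trace (mul_mem x.2 (adjugate_mem z.2))
    obtain ⟨Z, hZ⟩ := exists_trace z.2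
    set P : ℕ := p ^ (k + 1) with hP
    refine ⟨x + P • z, N + P * S + (P : ℤ) ^ 2 * Q, T + P * Z, ?_, ?_, ?_, ?_, ?_⟩
    · rw [Subring.coe_add, AddSubmonoidClass.coe_nsmul, ← Nat.cast_smul_eq_nsmul ℝ, det_add_smul,
        hN, hS, hQ]
      push_cast
      ring
    · rw [Subring.coe_add, AddSubmonoidClass.coe_nsmul, ← Nat.cast_smul_eq_nsmul ℝ, trace_add,
        trace_smul, hT, hZ, smul_eq_mul]
      push_cast
      ring
    · have hS' : (p : ℤ) ∣ a + S := by
        rw [← ZMod.intCast_zmod_eq_zero_iff_dvd, Int.cast_add,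
          ← trace_toMod p hp5 (x * ⟨_, adjugate_mem z.2⟩) hS, map_mul, toMod_adjugate, hx, hz]
        simp [adjugate_fin_two, trace_fin_two]
        ring
      obtain ⟨c, hc⟩ := hS'
      refine ⟨c + (p : ℤ) ^ k * Q, ?_⟩
      rw [hP] at ha ⊢
      push_cast at ha ⊢
      linear_combination ha + (p : ℤ) ^ (k + 1) * hc
    · have hZ' : (p : ℤ) ∣ b + Z := by
        rw [← ZMod.intCast_zmod_eq_zero_iff_dvd, Int.cast_add, ← trace_toMod p hp5 z hZ, hz]
        simp [trace_fin_two]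
      obtain ⟨c, hc⟩ := hZ'
      refine ⟨c, ?_⟩
      rw [hP] at hb ⊢
      push_cast at hb ⊢
      linear_combination hb + (p : ℤ) ^ (k + 1) * hc
    · rw [map_add, map_nsmul, hx, ← Nat.cast_smul_eq_nsmul (ZMod p), hP, Nat.cast_pow,
        ZMod.natCast_self, zero_pow (Nat.succ_ne_zero k), zero_smul, add_zero]

theorem exists_trace_mod (n : ℕ) : 0 < n → n.Coprime 6 → ∀ r : ℤ,
    ∃ x ∈ order, ∃ N T : ℤ, Matrix.det x = N ∧ Matrix.trace x = T ∧ (n : ℤ) ∣ N - 1 ∧
      (n : ℤ) ∣ T - r := by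
  induction n using Nat.recOnPrimeCoprime with
  | zero => intro h; exact absurd h (lt_irrefl 0)
  | prime_pow q i hq =>
    intro _ h6 r
    cases i with
    | zero => exact ⟨1, one_mem _, 1, 2, by simp, by simp, by simp,
        by simp⟩
    | succ i =>
      haveI : Fact q.Prime := ⟨hq⟩
      have h6' : q.Coprime 6 := (Nat.coprime_pow_left_iff i.succ_pos _ _).1 h6
      have hq5 : 5 ≤ q := by
        by_contra hlt
        have := hq.two_le
        interval_cases q <;> norm_num at h6'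
      obtain ⟨x, N, T, hN, hT, h1, h2, -⟩ := exists_trace_prime_pow q hq5 r i
      exact ⟨x, x.2, N, T, hN, hT, h1, h2⟩
  | coprime a b ha hb hab iha ihb =>
    intro _ h6 r
    obtain ⟨x, hx, N, T, hN, hT, hxN, hxT⟩ :=
      iha (by omega) (h6.coprime_dvd_left (dvd_mul_right a b)) r
    obtain ⟨y, hy, N', T', hN', hT', hyN, hyT⟩ :=
      ihb (by omega) (h6.coprime_dvd_left (dvd_mul_left b a)) r
    set u : ℤ := (b : ℤ) * Nat.gcdB a b
    set v : ℤ := (a : ℤ) * Nat.gcdA a b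
    have huv : u + v = 1 := by
      have h := Nat.gcd_eq_gcd_ab a b
      rw [hab.gcd_eq_one] at h
      push_cast at h
      simp only [u, v]
      linear_combination -h
    set z := (u : ℝ) • x + (v : ℝ) • y with hz
    have hzO : z ∈ order := add_mem (intCast_smul_mem hx _) (intCast_smul_mem hy _)
    obtain ⟨Nz, hNz⟩ := exists_det hzO
    obtain ⟨Tz, hTz⟩ := exists_trace hzO
    have huv' : (u : ℝ) + v = 1 := by exact_mod_cast huv
    have ca : Congr a z x := by
      refine ⟨((Nat.gcdA a b : ℤ) : ℝ) • (y - x), intCast_smul_mem (sub_mem hy hx) _, ?_⟩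
      rw [smul_smul, show (a : ℝ) * ((Nat.gcdA a b : ℤ) : ℝ) = (v : ℝ) by simp [v], smul_sub, hz]
      nth_rewrite 2 [← one_smul ℝ x]
      rw [← huv', add_smul]
      abel
    have cb : Congr b z y := by
      refine ⟨((Nat.gcdB a b : ℤ) : ℝ) • (x - y), intCast_smul_mem (sub_mem hx hy) _, ?_⟩
      rw [smul_smul, show (b : ℝ) * ((Nat.gcdB a b : ℤ) : ℝ) = (u : ℝ) by simp [u], smul_sub, hz]
      nth_rewrite 2 [← one_smul ℝ y]
      rw [← huv', add_smul]
      abel
    have hcop : IsCoprime (a : ℤ) b := Int.isCoprime_iff_nat_coprime.2 (by simpa using hab)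
    refine ⟨z, hzO, Nz, Tz, hNz, hTz, ?_, ?_⟩ <;> push_cast
    · refine hcop.mul_dvd ?_ ?_
      · simpa using dvd_add (ca.det_dvd hx hNz hN) hxN
      · simpa using dvd_add (cb.det_dvd hy hNz hN') hyN
    · refine hcop.mul_dvd ?_ ?_
      · simpa using dvd_add (congr_trace_dvd ca hTz hT) hxT
      · simpa using dvd_add (congr_trace_dvd cb hTz hT') hyT

end FA.QuaternionApprox

end
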