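import Fermat.Agent.QuaternionHecke.Count

/-!
# The order modulo a prime

For a prime `p ≥ 5` and `s² + t² = 3` in `ℤ / p` the order maps onto `M₂ (ℤ / p)` with kernel
`p` times the order, compatibly with determinants and adjugates.
-/

set_option autoImplicit false
set_option linter.unusedSectionVars false
set_option linter.style.haveILetI false

noncomputable section

open Matrix
open scoped MatrixGroups
open FA.Horocycle FA.QuaternionHecke

namespace FA.QuaternionApprox

/-- Congruence modulo `m` in the order. -/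
def Congr (m : ℕ) (x y : Matrix (Fin 2) (Fin 2) ℝ) : Prop :=
  ∃ z ∈ order, x - y = (m : ℝ) • z

namespace Congr

variable {m n : ℕ} {x y z x' y' : Matrix (Fin 2) (Fin 2) ℝ}

theorem refl (m : ℕ) (x : Matrix (Fin 2) (Fin 2) ℝ) : Congr m x x :=
  ⟨0, zero_mem _, by simp⟩

theorem symm (h : Congr m x y) : Congr m y x := by
  obtain ⟨w, hw, e⟩ := h
  exact ⟨-w, neg_mem hw, by rw [smul_neg, ← e, neg_sub]⟩

theorem trans (h : Congr m x y) (h' : Congr m y z) : Congr m x z := by
  obtain ⟨w, hw, e⟩ := h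
  obtain ⟨w', hw', e'⟩ := h'
  exact ⟨w + w', add_mem hw hw', by rw [smul_add, ← e, ← e', sub_add_sub_cancel]⟩

theorem add (h : Congr m x y) (h' : Congr m x' y') : Congr m (x + x') (y + y') := by
  obtain ⟨w, hw, e⟩ := h
  obtain ⟨w', hw', e'⟩ := h'
  exact ⟨w + w', add_mem hw hw', by rw [smul_add, ← e, ← e']; abel⟩

theorem mul (h : Congr m x y) (h' : Congr m x' y') (hy : y ∈ order) (hx' : x' ∈ order) :
    Congr m (x * x') (y * y') := by
  obtain ⟨w, hw, e⟩ := h
  obtain ⟨w', hw', e'⟩ := h'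
  refine ⟨w * x' + y * w', add_mem (mul_mem hw hx') (mul_mem hy hw'), ?_⟩
  rw [smul_add, ← Matrix.smul_mul, ← Matrix.mul_smul, ← e, ← e', Matrix.sub_mul, Matrix.mul_sub]
  abel

theorem of_dvd (hmn : m ∣ n) (h : Congr n x y) : Congr m x y := by
  obtain ⟨k, rfl⟩ := hmn
  obtain ⟨w, hw, e⟩ := h
  refine ⟨(k : ℝ) • w, by exact_mod_cast intCast_smul_mem hw (k : ℤ), ?_⟩
  rw [e, Nat.cast_mul, mul_smul]

theorem of_mem (hx : x ∈ order) (hy : y ∈ order) : Congr 1 x y :=
  ⟨x - y, sub_mem hx hy, by simp⟩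

theorem adjugate (h : Congr m x y) : Congr m (Matrix.adjugate x) (Matrix.adjugate y) := by
  obtain ⟨w, hw, e⟩ := h
  refine ⟨Matrix.adjugate w, adjugate_mem hw, ?_⟩
  rw [show (m : ℝ) • Matrix.adjugate w = Matrix.adjugate ((m : ℝ) • w) by
    rw [adjugate_smul, Fintype.card_fin, pow_one], ← e]
  ext i j
  fin_cases i <;> fin_cases j <;> simp [adjugate_fin_two] <;> ring

/-- Coprime moduli combine. -/
theorem combine (hmn : m.Coprime n) (h : Congr m x y) (h' : Congr n x y) :
    Congr (m * n) x y := by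
  obtain ⟨w, hw, e⟩ := h
  obtain ⟨w', hw', e'⟩ := h'
  have hb : ((1 : ℤ) : ℝ) = (m : ℝ) * (Nat.gcdA m n : ℤ) + (n : ℝ) * (Nat.gcdB m n : ℤ) := by
    have h := Nat.gcd_eq_gcd_ab m n
    rw [hmn.gcd_eq_one, Nat.cast_one] at h
    exact_mod_cast h
  refine ⟨((Nat.gcdA m n : ℤ) : ℝ) • w' + ((Nat.gcdB m n : ℤ) : ℝ) • w,
    add_mem (intCast_smul_mem hw' _) (intCast_smul_mem hw _), ?_⟩
  rw [smul_add, smul_smul, smul_smul, Nat.cast_mul,
    show (m : ℝ) * n * (Nat.gcdA m n : ℤ) = (m : ℝ) * (Nat.gcdA m n : ℤ) * n by ring,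
    show (m : ℝ) * n * (Nat.gcdB m n : ℤ) = (n : ℝ) * (Nat.gcdB m n : ℤ) * m by ring,
    mul_smul _ (n : ℝ), mul_smul _ (m : ℝ), ← e, ← e', ← add_smul, ← hb, Int.cast_one, one_smul]

/-- A divisibility prime to the modulus cancels. -/
theorem of_smul {l : ℕ} (hml : m.Coprime l) (hx : x ∈ order) (h : Congr m ((l : ℝ) • x) 0) :
    Congr m x 0 := by
  obtain ⟨w, hw, e⟩ := h
  rw [sub_zero] at e
  have hb : ((1 : ℤ) : ℝ) = (m : ℝ) * (Nat.gcdA m l : ℤ) + (l : ℝ) * (Nat.gcdB m l : ℤ) := by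
    have h := Nat.gcd_eq_gcd_ab m l
    rw [hml.gcd_eq_one, Nat.cast_one] at h
    exact_mod_cast h
  refine ⟨((Nat.gcdA m l : ℤ) : ℝ) • x + ((Nat.gcdB m l : ℤ) : ℝ) • w,
    add_mem (intCast_smul_mem hx _) (intCast_smul_mem hw _), ?_⟩
  rw [sub_zero, smul_add, smul_smul, smul_comm (m : ℝ) ((Nat.gcdB m l : ℤ) : ℝ), ← e, smul_smul,
    ← add_smul, mul_comm ((Nat.gcdB m l : ℤ) : ℝ), ← hb, Int.cast_one, one_smul]

theorem det_dvd {N N' : ℤ} (h : Congr m x y) (hy : y ∈ order) (hN : x.det = N)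
    (hN' : y.det = N') : (m : ℤ) ∣ N - N' := by
  obtain ⟨w, hw, e⟩ := h
  obtain ⟨T, hT⟩ := exists_trace (mul_mem hy (adjugate_mem hw))
  obtain ⟨W, hW⟩ := exists_det hw
  have hd : x.det = y.det + (m : ℝ) * T + (m : ℝ) ^ 2 * W := by
    rw [sub_eq_iff_eq_add'.1 e, det_add_smul, hT, hW]
  rw [hN, hN'] at hd
  have hd' : N = N' + (m : ℤ) * T + (m : ℤ) ^ 2 * W := by exact_mod_cast hd
  exact ⟨T + m * W, by rw [hd']; ring⟩

end Congr

/-- **The congruence subgroups.** -/
def level (m : ℕ) : Subgroup SL(2, ℝ) where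
  carrier := {g | (g : Matrix (Fin 2) (Fin 2) ℝ) ∈ order ∧
    Congr m (g : Matrix (Fin 2) (Fin 2) ℝ) 1}
  one_mem' := ⟨by simp [one_mem], by simpa using Congr.refl m _⟩
  mul_mem' {g h} hg hh := ⟨by simpa using mul_mem hg.1 hh.1, by
    simpa using hg.2.mul hh.2 (one_mem _) hh.1⟩
  inv_mem' {g} hg := ⟨by simpa [SpecialLinearGroup.coe_inv] using adjugate_mem hg.1, by
    simpa [SpecialLinearGroup.coe_inv] using hg.2.adjugate⟩

theorem mem_level {m : ℕ} {g : SL(2, ℝ)} :
    g ∈ level m ↔ (g : Matrix (Fin 2) (Fin 2) ℝ) ∈ order ∧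
      Congr m (g : Matrix (Fin 2) (Fin 2) ℝ) 1 := Iff.rfl

theorem level_le (m : ℕ) : level m ≤ orderUnits := fun _ hg => hg.1

theorem level_mono {m n : ℕ} (h : m ∣ n) : level n ≤ level m :=
  fun _ hg => ⟨hg.1, hg.2.of_dvd h⟩

theorem level_one : level 1 = orderUnits :=
  le_antisymm (level_le 1) fun _ hg => ⟨hg, Congr.of_mem hg (one_mem _)⟩

/-- An element of determinant one of the order, as an element of the group. -/
def unitOf (x : Matrix (Fin 2) (Fin 2) ℝ) (h : x.det = 1) : SL(2, ℝ) := ⟨x, h⟩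

theorem coe_unitOf (x : Matrix (Fin 2) (Fin 2) ℝ) (h : x.det = 1) :
    ((unitOf x h : SL(2, ℝ)) : Matrix (Fin 2) (Fin 2) ℝ) = x := rfl

/-- The coordinates of an element of the order. -/
def coords (x : Matrix (Fin 2) (Fin 2) ℝ) : Quad := Function.invFun hurMat x

theorem hurMat_coords {x : Matrix (Fin 2) (Fin 2) ℝ} (hx : x ∈ order) :
    hurMat (coords x) = x :=
  Function.invFun_eq (f := hurMat) hx

theorem coords_hurMat (q : Quad) : coords (hurMat q) = q :=
  Function.leftInverse_invFun hurMat_injective q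

/-! ### The map to matrices modulo `p` -/

variable (p : ℕ) [hp : Fact p.Prime]

/-- A square root pair of `3`. -/
def sPar : ZMod p := (ZMod.sq_add_sq p (3 : ZMod p)).choose

/-- A square root pair of `3`. -/
def tPar : ZMod p := (ZMod.sq_add_sq p (3 : ZMod p)).choose_spec.choose

theorem sPar_sq_add : sPar p ^ 2 + tPar p ^ 2 = 3 :=
  (ZMod.sq_add_sq p (3 : ZMod p)).choose_spec.choose_spec

/-- The matrix modulo `p` of the quaternion with given coordinates. -/
def modQuat (A B C D : ZMod p) : Matrix (Fin 2) (Fin 2) (ZMod p) :=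
  !![A + C * sPar p - D * tPar p, B + C * tPar p + D * sPar p;
    -B + C * tPar p + D * sPar p, A - C * sPar p + D * tPar p]

theorem modQuat_mul (A B C D A' B' C' D' : ZMod p) :
    modQuat p A B C D * modQuat p A' B' C' D' =
      modQuat p (A * A' - B * B' + 3 * C * C' + 3 * D * D')
        (A * B' + B * A' + 3 * C * D' - 3 * D * C') (A * C' + C * A' + B * D' - D * B')
        (A * D' + D * A' + C * B' - B * C') := by
  have h := sPar_sq_add p
  ext i j
  fin_cases i <;> fin_cases j <;> simp [modQuat, Matrix.mul_apply, Fin.sum_univ_two]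
  · linear_combination (C * C' + D * D') * h
  · linear_combination (C * D' - D * C') * h
  · linear_combination (-(C * D') + D * C') * h
  · linear_combination (C * C' + D * D') * h

theorem det_modQuat (A B C D : ZMod p) :
    (modQuat p A B C D).det = A ^ 2 + B ^ 2 - 3 * C ^ 2 - 3 * D ^ 2 := by
  have h := sPar_sq_add p
  simp only [modQuat, det_fin_two_of]
  linear_combination (-C ^ 2 - D ^ 2) * h

/-- The matrix modulo `p` of `a + b i + c j + e (1 + i + j + i j) / 2`. -/
def modMat (q : Quad) : Matrix (Fin 2) (Fin 2) (ZMod p) :=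
  modQuat p (q.1 + q.2.2.2 * 2⁻¹) (q.2.1 + q.2.2.2 * 2⁻¹) (q.2.2.1 + q.2.2.2 * 2⁻¹)
    (q.2.2.2 * 2⁻¹)

variable (hp5 : 5 ≤ p)

include hp5 in
theorem two_ne_zero_mod : (2 : ZMod p) ≠ 0 := fun h => by
  have h' : ((2 : ℕ) : ZMod p) = 0 := by exact_mod_cast h
  have := Nat.le_of_dvd two_pos ((ZMod.natCast_eq_zero_iff 2 p).1 h')
  omega

include hp5 in
theorem three_ne_zero_mod : (3 : ZMod p) ≠ 0 := fun h => by
  have h' : ((3 : ℕ) : ZMod p) = 0 := by exact_mod_cast h
  have := Nat.le_of_dvd (by norm_num) ((ZMod.natCast_eq_zero_iff 3 p).1 h')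
  omega

include hp5 in
theorem modMat_mul (q r : Quad) : modMat p (hurMul q r) = modMat p q * modMat p r := by
  have h2 : (2 : ZMod p) * 2⁻¹ = 1 := mul_inv_cancel₀ (two_ne_zero_mod p hp5)
  simp only [modMat, modQuat_mul, hurMul]
  push_cast
  generalize (2⁻¹ : ZMod p) = u at h2 ⊢
  generalize (q.1 : ZMod p) = a
  generalize (q.2.1 : ZMod p) = b
  generalize (q.2.2.1 : ZMod p) = c
  generalize (q.2.2.2 : ZMod p) = e
  generalize (r.1 : ZMod p) = a'
  generalize (r.2.1 : ZMod p) = b'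
  generalize (r.2.2.1 : ZMod p) = c'
  generalize (r.2.2.2 : ZMod p) = f
  congr 1
  · linear_combination (-(b * c') + c * b' - c * f + e * b' - 2 * e * c' - e * f - 3 * e * f * u) *
      h2
  · linear_combination (-(b * c') - b * f + c * b' - c * f + e * c' - e * f * u) * h2
  · linear_combination (-(b * c') - b * f + c * b' + e * b' - e * c' - e * f * u) * h2
  · linear_combination (-(b * c') + c * b' - e * f * u) * h2

theorem modMat_add (q r : Quad) : modMat p (q + r) = modMat p q + modMat p r := by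
  ext i j
  fin_cases i <;> fin_cases j <;> simp [modMat, modQuat] <;> ring

theorem modMat_one : modMat p (1, 0, 0, 0) = 1 := by
  ext i j
  fin_cases i <;> fin_cases j <;> simp [modMat, modQuat]

/-- **The reduction.** -/
def toMod (hp5 : 5 ≤ p) : order →+* Matrix (Fin 2) (Fin 2) (ZMod p) where
  toFun x := modMat p (coords (x : Matrix (Fin 2) (Fin 2) ℝ))
  map_one' := by
    rw [show ((1 : order) : Matrix (Fin 2) (Fin 2) ℝ) = hurMat (1, 0, 0, 0) from hurMat_one.symm,
      coords_hurMat, modMat_one]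
  map_mul' x y := by
    rw [Subring.coe_mul, ← modMat_mul p hp5]
    congr 1
    apply hurMat_injective
    rw [hurMat_coords (mul_mem x.2 y.2), ← hurMat_mul, hurMat_coords x.2, hurMat_coords y.2]
  map_zero' := by
    rw [show ((0 : order) : Matrix (Fin 2) (Fin 2) ℝ) = hurMat 0 from hurMat_zero.symm,
      coords_hurMat]
    ext i j
    fin_cases i <;> fin_cases j <;> simp [modMat, modQuat]
  map_add' x y := by
    rw [Subring.coe_add, ← modMat_add]
    congr 1
    apply hurMat_injective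
    rw [hurMat_coords (add_mem x.2 y.2), hurMat_add, hurMat_coords x.2, hurMat_coords y.2]

theorem toMod_hurMat (q : Quad) (h : hurMat q ∈ order) :
    toMod p hp5 ⟨hurMat q, h⟩ = modMat p q := by
  show modMat p (coords (hurMat q)) = _
  rw [coords_hurMat]

theorem det_toMod (x : order) {N : ℤ} (hN : (x : Matrix (Fin 2) (Fin 2) ℝ).det = N) :
    (toMod p hp5 x).det = (N : ZMod p) := by
  obtain ⟨_, q, rfl⟩ := x
  rw [det_hurMat, Int.cast_inj] at hN
  rw [toMod_hurMat, modMat, det_modQuat, ← hN, hurNorm]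
  have h2 : (2 : ZMod p) * 2⁻¹ = 1 := mul_inv_cancel₀ (two_ne_zero_mod p hp5)
  push_cast
  generalize (2⁻¹ : ZMod p) = u at h2 ⊢
  linear_combination ((q.1 : ZMod p) * q.2.2.2 + q.2.1 * q.2.2.2 - 3 * q.2.2.1 * q.2.2.2 -
    2 * (q.2.2.2 : ZMod p) ^ 2 * u - (q.2.2.2 : ZMod p) ^ 2) * h2

theorem toMod_adjugate (x : order) :
    toMod p hp5 ⟨Matrix.adjugate (x : Matrix (Fin 2) (Fin 2) ℝ), adjugate_mem x.2⟩ =
      Matrix.adjugate (toMod p hp5 x) := by
  obtain ⟨_, q, rfl⟩ := x
  have h2 : (2 : ZMod p) * 2⁻¹ = 1 := mul_inv_cancel₀ (two_ne_zero_mod p hp5)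
  show modMat p (coords (Matrix.adjugate (hurMat q))) = _
  rw [adjugate_hurMat, coords_hurMat, toMod_hurMat, modMat, modMat, hurConj]
  push_cast
  generalize (2⁻¹ : ZMod p) = u at h2 ⊢
  rw [adjugate_fin_two]
  ext i j
  fin_cases i <;> fin_cases j <;> simp [modQuat] <;> first
    | ring1
    | linear_combination -(q.2.2.2 : ZMod p) * h2

theorem toMod_surjective : Function.Surjective (toMod p hp5) := fun M => by
  have h2 := two_ne_zero_mod p hp5
  have h3 := three_ne_zero_mod p hp5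
  set A := (M 0 0 + M 1 1) / 2 with hA
  set B := (M 0 1 - M 1 0) / 2 with hB
  set X := (M 0 0 - M 1 1) / 2 with hX
  set Y := (M 0 1 + M 1 0) / 2 with hY
  set C := (sPar p * X + tPar p * Y) / 3 with hC
  set D := (sPar p * Y - tPar p * X) / 3 with hD
  obtain ⟨e, he⟩ := ZMod.intCast_surjective (2 * D)
  obtain ⟨a, ha⟩ := ZMod.intCast_surjective (A - D)
  obtain ⟨b, hb⟩ := ZMod.intCast_surjective (B - D)
  obtain ⟨c, hc⟩ := ZMod.intCast_surjective (C - D)
  refine ⟨⟨hurMat (a, b, c, e), ⟨_, rfl⟩⟩, ?_⟩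
  rw [toMod_hurMat, modMat]
  simp only [he, ha, hb, hc]
  rw [show (2 * D) * 2⁻¹ = D by field_simp]
  simp only [sub_add_cancel]
  have e1 : C * sPar p - D * tPar p = X := by
    simp only [hC, hD]
    field_simp
    linear_combination X * sPar_sq_add p
  have e2 : C * tPar p + D * sPar p = Y := by
    simp only [hC, hD]
    field_simp
    linear_combination Y * sPar_sq_add p
  ext i j
  fin_cases i <;> fin_cases j <;> simp [modQuat]
  · linear_combination (norm := (simp only [hA, hX]; field_simp; ring)) e1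
  · linear_combination (norm := (simp only [hB, hY]; field_simp; ring)) e2
  · linear_combination (norm := (simp only [hB, hY]; field_simp; ring)) e2
  · linear_combination (norm := (simp only [hA, hX]; field_simp; ring)) -e1

theorem toMod_natCast_smul (k : ℕ) (x : order) (h : (k : ℝ) • (x : Matrix _ _ ℝ) ∈ order) :
    toMod p hp5 ⟨(k : ℝ) • (x : Matrix (Fin 2) (Fin 2) ℝ), h⟩ = (k : ZMod p) • toMod p hp5 x := by
  rw [show (⟨(k : ℝ) • (x : Matrix (Fin 2) (Fin 2) ℝ), h⟩ : order) = k • x from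
    Subtype.ext (Nat.cast_smul_eq_nsmul ℝ k _), map_nsmul, ← Nat.cast_smul_eq_nsmul (ZMod p)]

theorem toMod_eq_zero_iff (x : order) :
    toMod p hp5 x = 0 ↔ Congr p (x : Matrix (Fin 2) (Fin 2) ℝ) 0 := by
  constructor
  · intro h
    obtain ⟨_, q, rfl⟩ := x
    have h2 := two_ne_zero_mod p hp5
    have h3 := three_ne_zero_mod p hp5
    rw [toMod_hurMat, modMat, modQuat] at h
    have e00 := congrFun (congrFun h 0) 0
    have e01 := congrFun (congrFun h 0) 1
    have e10 := congrFun (congrFun h 1) 0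
    have e11 := congrFun (congrFun h 1) 1
    simp at e00 e01 e10 e11
    have hs := sPar_sq_add p
    set u : ZMod p := 2⁻¹
    have hu : (2 : ZMod p) * u = 1 := mul_inv_cancel₀ h2
    set a : ZMod p := (q.1 : ZMod p)
    set b : ZMod p := (q.2.1 : ZMod p)
    set c : ZMod p := (q.2.2.1 : ZMod p)
    set e : ZMod p := (q.2.2.2 : ZMod p)
    have hA : a + e * u = 0 := mul_left_cancel₀ h2 (by linear_combination e00 + e11)
    have hB : b + e * u = 0 := mul_left_cancel₀ h2 (by linear_combination e01 - e10)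
    have hD : e * u = 0 := mul_left_cancel₀ (mul_ne_zero h2 h3) (by
      linear_combination sPar p * (e01 + e10) - tPar p * (e00 - e11) - 2 * (e * u) * hs)
    have hC : c + e * u = 0 := mul_left_cancel₀ (mul_ne_zero h2 h3) (by
      linear_combination sPar p * (e00 - e11) + tPar p * (e01 + e10) - 2 * (c + e * u) * hs)
    have he : e = 0 := by linear_combination 2 * hD - e * hu
    have hred : redQuad p q = redQuad p 0 := by
      funext i
      fin_cases i <;> simp [redQuad]
      · show a = 0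
        linear_combination hA - hD
      · show b = 0
        linear_combination hB - hD
      · show c = 0
        linear_combination hC - hD
      · exact he
    obtain ⟨z, hz⟩ := (redQuad_eq_iff p).1 hred
    rw [hurMat_zero, zero_add] at hz
    refine ⟨hurMat z, ⟨_, rfl⟩, ?_⟩
    show hurMat q - 0 = _
    rw [sub_zero]
    exact hz.trans (by simp)
  · rintro ⟨z, hz, e⟩
    rw [sub_zero] at e
    rw [show x = ⟨(p : ℝ) • z, e ▸ x.2⟩ from Subtype.ext e, toMod_natCast_smul p hp5 p ⟨z, hz⟩,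
      ZMod.natCast_self, zero_smul]

theorem toMod_eq_iff (x y : order) :
    toMod p hp5 x = toMod p hp5 y ↔
      Congr p (x : Matrix (Fin 2) (Fin 2) ℝ) (y : Matrix (Fin 2) (Fin 2) ℝ) := by
  rw [← sub_eq_zero, ← map_sub, toMod_eq_zero_iff]
  exact ⟨fun ⟨z, hz, e⟩ => ⟨z, hz, by simpa using e⟩, fun ⟨z, hz, e⟩ => ⟨z, hz, by simpa using e⟩⟩

/-- A unit as an element of the order. -/
def unitElem : orderUnits →* order where
  toFun γ := ⟨((γ : SL(2, ℝ)) : Matrix (Fin 2) (Fin 2) ℝ), γ.2⟩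
  map_one' := Subtype.ext (by simp)
  map_mul' γ δ := Subtype.ext (by simp)

theorem det_unitElem (γ : orderUnits) : (toMod p hp5 (unitElem γ)).det = 1 := by
  have h : ((unitElem γ : order) : Matrix (Fin 2) (Fin 2) ℝ).det = ((1 : ℤ) : ℝ) := by
    rw [Int.cast_one]
    exact (γ : SL(2, ℝ)).prop
  rw [det_toMod p hp5 _ h, Int.cast_one]

/-- The reduction of the units. -/
def redSL : orderUnits →* SL(2, ZMod p) where
  toFun γ := ⟨toMod p hp5 (unitElem γ), det_unitElem p hp5 γ⟩
  map_one' := Subtype.ext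
    ((congrArg (toMod p hp5) (map_one unitElem)).trans (map_one (toMod p hp5)))
  map_mul' γ δ := Subtype.ext
    ((congrArg (toMod p hp5) (map_mul unitElem γ δ)).trans (map_mul (toMod p hp5) _ _))

theorem coe_redSL (γ : orderUnits) :
    ((redSL p hp5 γ : SL(2, ZMod p)) : Matrix (Fin 2) (Fin 2) (ZMod p)) =
      toMod p hp5 ⟨_, γ.2⟩ := rfl

end FA.QuaternionApprox

end
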