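import Fermat.Agent.QuaternionApprox.Reduction
import Fermat.Agent.CocompactHurwitz.Congruence
import Mathlib.LinearAlgebra.Projectivization.PSL.PSL2

/-!
# Congruence subgroups map onto `SL₂ (ℤ / p)`

The smallest image of a congruence subgroup of level prime to `p` is normal, since conjugation by
an element of norm `l` carries level `M l` into level `M`.  It is not central, since conjugation by
elements of norm `p` would then force that congruence subgroup to be `± 1`, and it is infinite.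
-/

set_option autoImplicit false
set_option linter.unusedSectionVars false
set_option linter.style.haveILetI false

noncomputable section

open Matrix
open scoped MatrixGroups commutatorElement
open FA.Horocycle FA.QuaternionHecke

namespace FA.QuaternionApprox

theorem eq_zero_of_congr {x : Matrix (Fin 2) (Fin 2) ℝ} (hx : x ∈ order) :
    ∃ B : ℕ, ∀ m : ℕ, B < m → Congr m x 0 → x = 0 := by
  obtain ⟨q, rfl⟩ := hx
  refine ⟨q.1.natAbs + q.2.1.natAbs + q.2.2.1.natAbs + q.2.2.2.natAbs, fun m hm h => ?_⟩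
  obtain ⟨_, ⟨z, rfl⟩, e⟩ := h
  have hz : q = ((m : ℤ) * z.1, (m : ℤ) * z.2.1, (m : ℤ) * z.2.2.1, (m : ℤ) * z.2.2.2) :=
    hurMat_injective (by
      rw [sub_zero] at e
      rw [e]
      simp only [hurMat, smul_realQuat]
      push_cast
      congr 1 <;> ring)
  have key : ∀ a : ℤ, ((m : ℤ) * a).natAbs < m → (m : ℤ) * a = 0 := fun a ha => by
    by_contra hne
    rw [Int.natAbs_mul, Int.natAbs_natCast] at ha
    have : 0 < a.natAbs := Int.natAbs_pos.2 fun h0 => hne (by rw [h0, mul_zero])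
    nlinarith
  have h1 := key z.1 (by rw [hz] at hm; dsimp only at hm; omega)
  have h2 := key z.2.1 (by rw [hz] at hm; dsimp only at hm; omega)
  have h3 := key z.2.2.1 (by rw [hz] at hm; dsimp only at hm; omega)
  have h4 := key z.2.2.2 (by rw [hz] at hm; dsimp only at hm; omega)
  rw [hz, h1, h2, h3, h4]
  exact hurMat_zero

/-- A congruence subgroup has an element other than `± 1`. -/
theorem level_not_central {M : ℕ} (hM : 0 < M) :
    ∃ γ ∈ level M, (γ : Matrix (Fin 2) (Fin 2) ℝ) ≠ 1 ∧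
      (γ : Matrix (Fin 2) (Fin 2) ℝ) ≠ -1 := by
  haveI : NeZero M := ⟨hM.ne'⟩
  haveI : Infinite orderUnits := by
    haveI := CocompactHurwitz.infinite_unitGroup
    exact Infinite.of_injective _ (Subgroup.inclusion_injective unitGroup_le)
  obtain ⟨r, hr⟩ := Finite.exists_infinite_fiber fun γ : orderUnits =>
    redQuad M (coords ((γ : SL(2, ℝ)) : Matrix (Fin 2) (Fin 2) ℝ))
  obtain ⟨γ₀, hγ₀⟩ := hr.nonempty
  by_contra hcon
  push Not at hcon
  have hmem : ∀ γ ∈ (fun γ : orderUnits =>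
      redQuad M (coords ((γ : SL(2, ℝ)) : Matrix (Fin 2) (Fin 2) ℝ))) ⁻¹' {r},
      ((γ₀⁻¹ * γ : orderUnits) : SL(2, ℝ)) ∈ level M := fun γ hγ => by
    refine ⟨(γ₀⁻¹ * γ).2, ?_⟩
    obtain ⟨z, hz⟩ := (redQuad_eq_iff M).1 (hγ.trans hγ₀.symm)
    rw [hurMat_coords γ.2, hurMat_coords γ₀.2] at hz
    have hc : Congr M ((γ : SL(2, ℝ)) : Matrix (Fin 2) (Fin 2) ℝ)
        ((γ₀ : SL(2, ℝ)) : Matrix (Fin 2) (Fin 2) ℝ) :=
      ⟨hurMat z, ⟨z, rfl⟩, by rw [hz]; simp⟩
    have hi : ((γ₀⁻¹ : orderUnits) : SL(2, ℝ)) ∈ orderUnits := (γ₀⁻¹).2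
    have h := (Congr.refl M (((γ₀⁻¹ : orderUnits) : SL(2, ℝ)) : Matrix (Fin 2) (Fin 2) ℝ)).mul hc hi
      γ.2
    have hinv : ((((γ₀⁻¹ * γ₀ : orderUnits) : SL(2, ℝ))) : Matrix (Fin 2) (Fin 2) ℝ) = 1 := by
      simp
    rw [← hinv]
    exact h
  have hr' := Set.infinite_coe_iff.1 hr
  have hfin : {g : SL(2, ℝ) | (g : Matrix (Fin 2) (Fin 2) ℝ) = 1 ∨
      (g : Matrix (Fin 2) (Fin 2) ℝ) = -1}.Finite := by
    refine Set.Finite.subset (s := {1, -1}) (Set.toFinite _) fun g hg => ?_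
    rcases hg with h | h
    · exact .inl (Subtype.ext h)
    · exact .inr (Subtype.ext (by simpa using h))
  refine hr' (Set.Finite.of_finite_image (f := fun γ : orderUnits =>
    ((γ₀⁻¹ * γ : orderUnits) : SL(2, ℝ))) (hfin.subset ?_)
    fun a _ b _ e => mul_left_cancel (Subtype.ext e))
  rintro _ ⟨γ, hγ, rfl⟩
  exact or_iff_not_imp_left.2 (hcon _ (hmem γ hγ))

variable (p : ℕ) [hp : Fact p.Prime] (hp5 : 5 ≤ p)

include hp5 in
theorem trace_toMod (x : order) {T : ℤ}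
    (hT : (x : Matrix (Fin 2) (Fin 2) ℝ).trace = T) :
    (toMod p hp5 x).trace = (T : ZMod p) := by
  obtain ⟨N, hN⟩ := exists_det x.2
  have h1 : ((1 + x : order) : Matrix (Fin 2) (Fin 2) ℝ).det = ((1 + T + N : ℤ) : ℝ) := by
    push_cast
    rw [← hT, ← hN]
    simp [det_fin_two, trace_fin_two]
    ring
  have e := det_toMod p hp5 _ h1
  rw [map_add, map_one] at e
  have e' := det_toMod p hp5 x hN
  push_cast at e
  simp [det_fin_two, trace_fin_two] at e e' ⊢
  linear_combination e - e'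

include hp5 in
/-- A lift of positive norm. -/
theorem exists_lift_pos (a : Matrix (Fin 2) (Fin 2) (ZMod p)) :
    ∃ (x : order) (N : ℕ), 0 < N ∧ toMod p hp5 x = a ∧
      (x : Matrix (Fin 2) (Fin 2) ℝ).det = (N : ℝ) := by
  obtain ⟨x, hx⟩ := toMod_surjective p hp5 a
  obtain ⟨N, hN⟩ := exists_det x.2
  obtain ⟨T, hT⟩ := exists_trace x.2
  set k : ℕ := T.natAbs + N.natAbs + 1
  set x' : order := x + (p * k : ℕ) • 1
  have hd : (x' : Matrix (Fin 2) (Fin 2) ℝ).det =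
      ((N + (p * k : ℕ) * T + ((p * k : ℕ) : ℤ) ^ 2 : ℤ) : ℝ) := by
    rw [Subring.coe_add, AddSubmonoidClass.coe_nsmul, Subring.coe_one, ← Nat.cast_smul_eq_nsmul ℝ,
      det_add_smul, adjugate_one, Matrix.mul_one, hT, hN, det_one]
    push_cast
    ring
  have hpos : 0 < N + ((p * k : ℕ) : ℤ) * T + ((p * k : ℕ) : ℤ) ^ 2 := by
    set P : ℤ := ((p * k : ℕ) : ℤ) with hP
    have hPk : (k : ℤ) ≤ P := by
      rw [hP]
      exact_mod_cast Nat.le_mul_of_pos_left k hp.out.pos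
    have hk : (k : ℤ) = |T| + |N| + 1 := by
      simp only [k]
      push_cast
      ring
    nlinarith [abs_nonneg T, abs_nonneg N, neg_abs_le T, neg_abs_le N]
  refine ⟨x', (N + ((p * k : ℕ) : ℤ) * T + ((p * k : ℕ) : ℤ) ^ 2).toNat,
    by omega, ?_, ?_⟩
  · rw [map_add, hx, map_nsmul, map_one, ← Nat.cast_smul_eq_nsmul (ZMod p), Nat.cast_mul,
      ZMod.natCast_self, zero_mul, zero_smul, add_zero]
  · rw [hd]
    exact_mod_cast (Int.toNat_of_nonneg hpos.le).symm

include hp5 in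
/-- A singular nonzero matrix modulo `p` is a left multiple of the image of an element of
norm `p`. -/
theorem exists_norm_factor {a : Matrix (Fin 2) (Fin 2) (ZMod p)} (hdet : a.det = 0) (ha : a ≠ 0) :
    ∃ g u : order, (g : Matrix (Fin 2) (Fin 2) ℝ).det = (p : ℝ) ∧
      toMod p hp5 u * toMod p hp5 g = a := by
  obtain ⟨x, hx⟩ := toMod_surjective p hp5 a
  obtain ⟨N, hN⟩ := exists_det x.2
  have hpN : (p : ℤ) ∣ N := by
    rw [← ZMod.intCast_zmod_eq_zero_iff_dvd, ← det_toMod p hp5 x hN, hx, hdet]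
  obtain ⟨g, c, d, u, v, G, ⟨hgO, -, -, hu, hv⟩, ⟨-, hxu, hnv⟩, hGd, hpos, hdvd, -, h2⟩ :=
    exists_gcd x.2 (n := (p : ℤ)) (by exact_mod_cast hp.out.pos) hN
  lift G to ℕ using hpos.le
  have hpG : p ∣ G := by exact_mod_cast hdvd p dvd_rfl hpN
  norm_cast at h2
  obtain ⟨i, hi, rfl⟩ := (Nat.dvd_prime_pow hp.out).1 h2
  interval_cases i
  · exact absurd (Nat.le_of_dvd one_pos (by simpa using hpG)) (by omega)
  · refine ⟨⟨g, hgO⟩, ⟨u, hu⟩, by simpa using hGd, ?_⟩
    rw [← map_mul, ← hx]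
    exact congrArg _ (Subtype.ext hxu.symm)
  exfalso
  refine ha ?_
  push_cast at hGd hnv
  have hv1 : v.det = 1 := by
    have e := congrArg Matrix.det hnv
    rw [det_mul, det_smul, det_one, mul_one, hGd, Fintype.card_fin] at e
    exact mul_right_cancel₀ (pow_ne_zero 2 (Nat.cast_ne_zero.2 hp.out.ne_zero))
      (e.symm.trans (one_mul _).symm)
  have hg : g = (p : ℝ) • adjugate v := by
    have e := congrArg (adjugate v * ·) hnv
    simp only [Matrix.mul_smul, Matrix.mul_one, ← Matrix.mul_assoc, Matrix.adjugate_mul, hv1,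
      one_smul, Matrix.one_mul] at e
    exact e.symm
  rw [← hx, toMod_eq_zero_iff]
  exact ⟨u * adjugate v, mul_mem hu (adjugate_mem hv), by
    rw [sub_zero, hxu, hg, Matrix.mul_smul]⟩

include hp5 in
theorem descent {M : ℕ} (hMp : M.Coprime p)
    (hcent : ∀ γ ∈ level M, ∃ ε : ℤ, (ε = 1 ∨ ε = -1) ∧
      Congr p (γ : Matrix (Fin 2) (Fin 2) ℝ) ((ε : ℝ) • 1)) (k : ℕ) :
    ∀ γ ∈ level M, ∃ ε : ℤ, (ε = 1 ∨ ε = -1) ∧
      Congr (p ^ (k + 1)) (γ : Matrix (Fin 2) (Fin 2) ℝ) ((ε : ℝ) • 1) := by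
  induction k with
  | zero => simpa using hcent
  | succ k ih =>
  intro γ hγ
  obtain ⟨ε, hε, q, hq, heq⟩ := ih γ hγ
  obtain ⟨q', hq', heq'⟩ := hγ.2
  refine ⟨ε, hε, ?_⟩
  rw [sub_eq_iff_eq_add'] at heq
  set P : ℝ := (p : ℝ) with hP
  have hP0 : P ≠ 0 := Nat.cast_ne_zero.2 hp.out.ne_zero
  have hsmall : ∀ ε' : ℤ, (ε' = 1 ∨ ε' = -1) → ((ε' : ℤ) : ZMod p) = (ε : ZMod p) → ε' = ε :=
    fun ε' hε' h => by
      have hd := (ZMod.intCast_eq_intCast_iff_dvd_sub _ _ p).1 h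
      rcases hε with rfl | rfl <;> rcases hε' with rfl | rfl <;> norm_num at hd ⊢
      all_goals
        have h2 := Nat.le_of_dvd two_pos (Int.natCast_dvd_natCast.1
          (show (p : ℤ) ∣ ((2 : ℕ) : ℤ) by simpa using hd))
        omega
  -- conjugating by elements of norm `p`
  have hkill : ∀ g : order, (g : Matrix (Fin 2) (Fin 2) ℝ).det = P →
      toMod p hp5 g * toMod p hp5 ⟨q, hq⟩ * Matrix.adjugate (toMod p hp5 g) = 0 := by
    intro g hg
    set Y : Matrix (Fin 2) (Fin 2) ℝ :=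
      (g : Matrix (Fin 2) (Fin 2) ℝ) * q * Matrix.adjugate (g : Matrix (Fin 2) (Fin 2) ℝ)
    have hY : Y ∈ order := mul_mem (mul_mem g.2 hq) (adjugate_mem g.2)
    set δ : Matrix (Fin 2) (Fin 2) ℝ := (ε : ℝ) • 1 + ((p ^ k : ℕ) : ℝ) • Y
    have hδO : δ ∈ order := add_mem (intCast_smul_mem (one_mem _) ε)
      (by exact_mod_cast intCast_smul_mem hY ((p ^ k : ℕ) : ℤ))
    have hPδ : P • δ = (g : Matrix (Fin 2) (Fin 2) ℝ) * (γ : Matrix (Fin 2) (Fin 2) ℝ) *
        Matrix.adjugate (g : Matrix (Fin 2) (Fin 2) ℝ) := by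
      rw [heq, Matrix.mul_add, Matrix.add_mul, Matrix.mul_smul, Matrix.mul_one, Matrix.smul_mul,
        Matrix.mul_adjugate, hg, Matrix.mul_smul, Matrix.smul_mul]
      simp only [δ, smul_add, smul_smul, Y]
      push_cast
      congr 1
      · rw [mul_comm]
      · congr 1
        ring
    have hδdet : δ.det = 1 := by
      have e := congrArg Matrix.det hPδ
      rw [det_smul, Fintype.card_fin, det_mul, det_mul, det_adjugate, Fintype.card_fin,
        γ.prop, hg] at e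
      exact mul_left_cancel₀ (pow_ne_zero 2 hP0) (e.trans (by ring))
    have hδM : Congr M δ 1 := by
      have h0 : Congr M (P • (δ - 1)) 0 := by
        refine ⟨(g : Matrix (Fin 2) (Fin 2) ℝ) * q' *
          Matrix.adjugate (g : Matrix (Fin 2) (Fin 2) ℝ),
          mul_mem (mul_mem g.2 hq') (adjugate_mem g.2), ?_⟩
        rw [sub_zero, smul_sub, hPδ, ← Matrix.smul_mul, ← Matrix.mul_smul, ← heq',
          Matrix.mul_sub, Matrix.mul_one, Matrix.sub_mul, Matrix.mul_adjugate, hg]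
      obtain ⟨w, hw, e⟩ := Congr.of_smul hMp (sub_mem hδO (one_mem _)) h0
      exact ⟨w, hw, by rw [sub_zero] at e; exact e⟩
    obtain ⟨ε', hε', w, hw, hw'⟩ := ih (unitOf δ hδdet) ⟨hδO, hδM⟩
    rw [coe_unitOf] at hw'
    have hYdet : (toMod p hp5 ⟨Y, hY⟩).det = 0 := by
      obtain ⟨Q, hQ⟩ := exists_det hq
      rw [det_toMod p hp5 _ (N := (p : ℤ) * (Q * p)) (by
        simp only [Y, det_mul, det_adjugate, Fintype.card_fin, hg, hQ, hP]
        push_cast
        ring)]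
      simp
    have hring : (ε : ℤ) • (1 : order) + (p ^ k : ℕ) • (⟨Y, hY⟩ : order) =
        (ε' : ℤ) • (1 : order) + (p ^ (k + 1) : ℕ) • (⟨w, hw⟩ : order) := by
      refine Subtype.ext ?_
      simp only [Subring.coe_add, AddSubgroupClass.coe_zsmul, AddSubmonoidClass.coe_nsmul,
        Subring.coe_one, ← Int.cast_smul_eq_zsmul ℝ, ← Nat.cast_smul_eq_nsmul ℝ]
      exact (sub_eq_iff_eq_add'.1 hw')
    have hmod := congrArg (toMod p hp5) hring
    simp only [map_add, map_zsmul, map_one, map_nsmul, ← Int.cast_smul_eq_zsmul (ZMod p),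
      ← Nat.cast_smul_eq_nsmul (ZMod p), Nat.cast_pow, ZMod.natCast_self,
      zero_pow (Nat.succ_ne_zero k), zero_smul, add_zero] at hmod
    have hee : ε' = ε := by
      refine hsmall ε' hε' ?_
      rcases Nat.eq_zero_or_pos k with rfl | hk
      · rw [pow_zero, one_smul] at hmod
        have hd := congrArg Matrix.det (eq_sub_of_add_eq' hmod)
        rw [hYdet, ← sub_smul, det_smul, det_one, mul_one, Fintype.card_fin] at hd
        exact sub_eq_zero.1 (pow_eq_zero_iff two_ne_zero |>.1 hd.symm)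
      · rw [zero_pow hk.ne', zero_smul, add_zero] at hmod
        have e := congrFun (congrFun hmod 0) 0
        simpa using e.symm
    have hYw : Y = P • w := by
      have e := congrArg (fun x : order => (x : Matrix (Fin 2) (Fin 2) ℝ)) hring
      simp only [Subring.coe_add, AddSubgroupClass.coe_zsmul, AddSubmonoidClass.coe_nsmul,
        Subring.coe_one, ← Int.cast_smul_eq_zsmul ℝ, ← Nat.cast_smul_eq_nsmul ℝ, hee] at e
      have e2 := add_left_cancel e
      push_cast at e2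
      rw [pow_succ, mul_smul] at e2
      exact smul_right_injective _ (pow_ne_zero k hP0) e2
    rw [← toMod_adjugate, ← map_mul, ← map_mul]
    exact (toMod_eq_zero_iff p hp5 _).2 ⟨w, hw, by simpa [Y] using hYw⟩
  -- three singular matrices force a scalar
  have hkill' : ∀ a : Matrix (Fin 2) (Fin 2) (ZMod p), a.det = 0 → a ≠ 0 →
      a * toMod p hp5 ⟨q, hq⟩ * Matrix.adjugate a = 0 := fun a hdet ha => by
    obtain ⟨g, u, hg, rfl⟩ := exists_norm_factor p hp5 hdet ha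
    rw [Matrix.adjugate_mul_distrib,
      show ∀ A B C D : Matrix (Fin 2) (Fin 2) (ZMod p), A * B * C * D = A * (B * C * D) from
        fun A B C D => by simp only [Matrix.mul_assoc], ← Matrix.mul_assoc (toMod p hp5 g * _),
      hkill g hg, Matrix.zero_mul, Matrix.mul_zero]
  have hne : ∀ (a : Matrix (Fin 2) (Fin 2) (ZMod p)) i j, a i j ≠ 0 → a ≠ 0 :=
    fun a i j h e => h (by simp [e])
  have k1 := hkill' !![1, 0; 0, 0] (by simp [det_fin_two]) (hne _ 0 0 (by simp))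
  have k2 := hkill' !![0, 0; 0, 1] (by simp [det_fin_two]) (hne _ 1 1 (by simp))
  have k3 := hkill' !![1, 1; 0, 0] (by simp [det_fin_two]) (hne _ 0 0 (by simp))
  have e1 := congrFun (congrFun k1 0) 1
  have e2 := congrFun (congrFun k2 1) 0
  have e3 := congrFun (congrFun k3 0) 1
  simp [adjugate_fin_two, Matrix.mul_apply, Fin.sum_univ_two, Matrix.vecMul, dotProduct] at e1 e2 e3
  -- the trace vanishes
  obtain ⟨Q, hQ⟩ := exists_det hq
  obtain ⟨T, hT⟩ := exists_trace hq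
  have htr : (toMod p hp5 ⟨q, hq⟩).trace = 0 := by
    rw [trace_toMod p hp5 _ hT]
    have hεε : (ε : ℝ) * ε = 1 := by rcases hε with rfl | rfl <;> norm_num
    have e := congrArg Matrix.det heq
    rw [γ.prop] at e
    simp [det_fin_two] at e
    rw [det_fin_two] at hQ
    rw [trace_fin_two] at hT
    set c : ℝ := ((p : ℝ)) ^ (k + 1) with hc
    have hc0 : c ≠ 0 := pow_ne_zero _ hP0
    have e4 : (ε : ℝ) * T + c * Q = 0 := by
      refine mul_left_cancel₀ hc0 ?_
      linear_combination -e - hεε - (ε : ℝ) * c * hT - c ^ 2 * hQ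
    have e5 : ε * T + (p : ℤ) ^ (k + 1) * Q = 0 := by
      rw [hc] at e4
      exact_mod_cast e4
    have e6 := congrArg (fun z : ℤ => (z : ZMod p)) e5
    simp [zero_pow (Nat.succ_ne_zero k)] at e6
    rcases e6 with h | h
    · rcases hε with rfl | rfl <;> simp at h
    · exact h
  rw [trace_fin_two] at htr
  have h2 := two_ne_zero_mod p hp5
  have hzero : toMod p hp5 ⟨q, hq⟩ = 0 := by
    set φ := toMod p hp5 ⟨q, hq⟩
    have h00 : φ 0 0 = 0 := mul_left_cancel₀ h2 (by linear_combination htr - e3 + e1 - e2)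
    ext i j
    fin_cases i <;> fin_cases j
    · exact h00
    · exact e1
    · exact e2
    · show φ 1 1 = 0
      linear_combination htr - h00
  obtain ⟨z, hz, hzq⟩ := (toMod_eq_zero_iff p hp5 _).1 hzero
  refine ⟨z, hz, ?_⟩
  rw [sub_eq_iff_eq_add', heq]
  simp only [sub_zero] at hzq
  rw [hzq, smul_smul]
  push_cast
  ring_nf

/-- The image of a congruence subgroup modulo `p`. -/
def levelImage (M : ℕ) : Subgroup SL(2, ZMod p) :=
  ((level M).subgroupOf orderUnits).map (redSL p hp5)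

theorem levelImage_mono {m n : ℕ} (h : m ∣ n) : levelImage p hp5 n ≤ levelImage p hp5 m :=
  Subgroup.map_mono fun _ hg => level_mono h hg

theorem eq_top_of_normal {H : Subgroup SL(2, ZMod p)} (hn : H.Normal) (hp5 : 5 ≤ p)
    (hH : ¬ H ≤ Subgroup.center SL(2, ZMod p)) : H = ⊤ := by
  haveI := Matrix.ProjectiveSpecialLinearGroup.rank_two_simple (F := ZMod p)
    (by rw [Nat.card_zmod]; omega)
  set Z := Subgroup.center SL(2, ZMod p) with hZ
  haveI := hn
  haveI : (H.map (QuotientGroup.mk' Z)).Normal := hn.map _ (QuotientGroup.mk'_surjective Z)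
  rcases IsSimpleGroup.eq_bot_or_eq_top_of_normal (G := PSL(2, ZMod p))
    (H.map (QuotientGroup.mk' Z)) this with hbot | htop
  · refine absurd ?_ hH
    rwa [Subgroup.map_eq_bot_iff, QuotientGroup.ker_mk'] at hbot
  · have hsup : ∀ g : SL(2, ZMod p), ∃ h ∈ H, ∃ z ∈ Z, g = h * z := fun g => by
      obtain ⟨h, hh, e⟩ : QuotientGroup.mk' Z g ∈ H.map (QuotientGroup.mk' Z) := by
        rw [show H.map (QuotientGroup.mk' Z) = ⊤ from htop]
        exact Subgroup.mem_top _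
      exact ⟨h, hh, h⁻¹ * g, QuotientGroup.eq.1 e, (mul_inv_cancel_left h g).symm⟩
    have ha : ((2 : ℕ) : ZMod p) ≠ 0 := fun h0 => by
      have := Nat.le_of_dvd two_pos ((ZMod.natCast_eq_zero_iff 2 p).1 h0)
      omega
    have hsq : ((2 : ℕ) : ZMod p) ^ 2 ≠ 1 := fun h1 => by
      have h3 : ((3 : ℕ) : ZMod p) = 0 := by push_cast at h1 ⊢; linear_combination h1
      have := Nat.le_of_dvd (by norm_num) ((ZMod.natCast_eq_zero_iff 3 p).1 h3)
      omega
    rw [eq_top_iff, ← SL2.commutator_eq_top ha hsq, commutator_eq_closure, Subgroup.closure_le]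
    rintro _ ⟨a, b, rfl⟩
    obtain ⟨h₁, hh₁, z₁, hz₁, rfl⟩ := hsup a
    obtain ⟨h₂, hh₂, z₂, hz₂, rfl⟩ := hsup b
    have c1 := Subgroup.mem_center_iff.1 hz₁
    have c2 := Subgroup.mem_center_iff.1 hz₂
    have e : ⁅h₁ * z₁, h₂ * z₂⁆ = ⁅h₁, h₂⁆ := by
      simp only [commutatorElement_def, _root_.mul_inv_rev]
      calc h₁ * z₁ * (h₂ * z₂) * (z₁⁻¹ * h₁⁻¹) * (z₂⁻¹ * h₂⁻¹)
          = h₁ * (z₁ * h₂) * (z₂ * (z₁⁻¹ * h₁⁻¹)) * (z₂⁻¹ * h₂⁻¹) := by group
        _ = h₁ * (h₂ * z₁) * ((z₁⁻¹ * h₁⁻¹) * z₂) * (z₂⁻¹ * h₂⁻¹) := by rw [← c1, ← c2]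
        _ = h₁ * h₂ * h₁⁻¹ * h₂⁻¹ := by group
    show ⁅h₁ * z₁, h₂ * z₂⁆ ∈ H
    rw [e, commutatorElement_def]
    exact H.mul_mem (H.mul_mem (H.mul_mem hh₁ hh₂) (H.inv_mem hh₁)) (H.inv_mem hh₂)

include hp5 in
/-- **Congruence subgroups of level prime to `p` map onto `SL₂ (ℤ / p)`.** -/
theorem levelImage_eq_top {M : ℕ} (hM : 0 < M) (hMp : M.Coprime p) :
    levelImage p hp5 M = ⊤ := by
  classical
  have hex : ∃ c : ℕ, ∃ m : ℕ, 0 < m ∧ m.Coprime p ∧ Nat.card (levelImage p hp5 m) = c :=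
    ⟨_, M, hM, hMp, rfl⟩
  obtain ⟨m₀, hm₀, hm₀p, hcard⟩ := Nat.find_spec hex
  have hstable : ∀ m : ℕ, 0 < m → m.Coprime p → levelImage p hp5 m₀ ≤ levelImage p hp5 m := by
    intro m hm hmp
    have hle := Nat.find_min' hex ⟨m₀ * m, Nat.mul_pos hm₀ hm, hm₀p.mul_left hmp, rfl⟩
    rw [← hcard] at hle
    rw [← Subgroup.eq_of_le_of_card_ge (levelImage_mono p hp5 (dvd_mul_right m₀ m)) hle]
    exact levelImage_mono p hp5 (dvd_mul_left m m₀)
  set H := levelImage p hp5 m₀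
  refine eq_top_iff.2 (le_trans (le_of_eq ?_) (hstable M hM hMp))
  symm
  refine eq_top_of_normal p ⟨fun h hh a => ?_⟩ hp5 fun hle => ?_
  · obtain ⟨x, l, hl, hxa, hxd⟩ := exists_lift_pos p hp5 (a : Matrix (Fin 2) (Fin 2) (ZMod p))
    have hlp : ((l : ℤ) : ZMod p) = 1 := by
      rw [← det_toMod p hp5 x (by simpa using hxd), hxa, a.prop]
    have hlp' : l.Coprime p := by
      rw [Nat.coprime_comm, hp.out.coprime_iff_not_dvd]
      intro hd
      rw [Int.cast_natCast, (ZMod.natCast_eq_zero_iff l p).2 hd] at hlp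
      exact zero_ne_one hlp
    obtain ⟨η, hη, rfl⟩ := hstable (m₀ * l) (Nat.mul_pos hm₀ hl) (hm₀p.mul_left hlp') hh
    obtain ⟨hηO, q, hq, hηq⟩ := hη
    replace hηq : ((η : SL(2, ℝ)) : Matrix (Fin 2) (Fin 2) ℝ) - 1 = _ := hηq
    set X : Matrix (Fin 2) (Fin 2) ℝ := (x : Matrix (Fin 2) (Fin 2) ℝ)
    set Y := X * q * Matrix.adjugate X
    have hY : Y ∈ order := mul_mem (mul_mem x.2 hq) (adjugate_mem x.2)
    set δ : Matrix (Fin 2) (Fin 2) ℝ := 1 + (m₀ : ℝ) • Y
    have hδO : δ ∈ order := add_mem (one_mem _) (by exact_mod_cast intCast_smul_mem hY (m₀ : ℤ))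
    have hlδ : (l : ℝ) • δ =
        X * ((η : SL(2, ℝ)) : Matrix (Fin 2) (Fin 2) ℝ) * Matrix.adjugate X := by
      rw [sub_eq_iff_eq_add'.1 hηq, Matrix.mul_add, Matrix.add_mul, Matrix.mul_one,
        Matrix.mul_adjugate, hxd, Matrix.mul_smul, Matrix.smul_mul, Nat.cast_mul, mul_comm,
        mul_smul]
      exact smul_add _ _ _
    have hl0 : (l : ℝ) ≠ 0 := Nat.cast_ne_zero.2 hl.ne'
    have hδdet : δ.det = 1 := by
      have e := congrArg Matrix.det hlδ
      rw [det_smul, Fintype.card_fin, det_mul, det_mul, det_adjugate, Fintype.card_fin,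
        (η : SL(2, ℝ)).prop, hxd] at e
      exact mul_left_cancel₀ (pow_ne_zero 2 hl0) (e.trans (by ring))
    refine ⟨⟨unitOf δ hδdet, hδO⟩, ⟨hδO, Y, hY, by simp [coe_unitOf, δ]⟩, Subtype.ext ?_⟩
    have e1 : (⟨(l : ℝ) • δ, by exact_mod_cast intCast_smul_mem hδO (l : ℤ)⟩ : order) =
        x * unitElem η * ⟨Matrix.adjugate X, adjugate_mem x.2⟩ := Subtype.ext hlδ
    have e2 := congrArg (toMod p hp5) e1
    rw [toMod_natCast_smul p hp5 l ⟨δ, hδO⟩, map_mul, map_mul, toMod_adjugate, hxa] at e2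
    rw [show (l : ZMod p) = 1 by exact_mod_cast hlp, one_smul] at e2
    simp only [coe_redSL]
    exact e2
  · obtain ⟨γ, hγ, h1, h2⟩ := level_not_central hm₀
    have hcent : ∀ δ ∈ level m₀, ∃ ε : ℤ, (ε = 1 ∨ ε = -1) ∧
        Congr p (δ : Matrix (Fin 2) (Fin 2) ℝ) ((ε : ℝ) • 1) := fun δ hδ => by
      obtain ⟨r, hr, hrA⟩ := Matrix.SpecialLinearGroup.mem_center_iff.1
        (hle (Subgroup.mem_map.2 ⟨⟨δ, level_le _ hδ⟩, hδ, rfl⟩))
      rw [Fintype.card_fin, sq_eq_one_iff] at hr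
      rw [coe_redSL] at hrA
      rcases hr with rfl | rfl
      · refine ⟨1, .inl rfl, ?_⟩
        rw [Int.cast_one, one_smul]
        exact (toMod_eq_iff p hp5 ⟨_, level_le _ hδ⟩ 1).1 (by rw [map_one, ← hrA]; simp)
      · refine ⟨-1, .inr rfl, ?_⟩
        rw [Int.cast_neg, Int.cast_one, neg_smul, one_smul]
        exact (toMod_eq_iff p hp5 ⟨_, level_le _ hδ⟩ (-1)).1
          (by rw [map_neg, map_one, ← hrA, map_neg, map_one])
    obtain ⟨B₁, hB₁⟩ := eq_zero_of_congr (sub_mem hγ.1 (one_mem order))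
    obtain ⟨B₂, hB₂⟩ := eq_zero_of_congr (add_mem hγ.1 (one_mem order))
    obtain ⟨ε, hε, hc⟩ := descent p hp5 hm₀p hcent (B₁ + B₂) γ hγ
    have hbig : B₁ + B₂ < p ^ (B₁ + B₂ + 1) :=
      (Nat.lt_pow_self hp.out.one_lt).trans
        (Nat.pow_lt_pow_right hp.out.one_lt (Nat.lt_succ_self _))
    obtain ⟨w, hw, e⟩ := hc
    rcases hε with rfl | rfl
    · refine h1 (sub_eq_zero.1 (hB₁ (p ^ (B₁ + B₂ + 1)) (by omega) ⟨w, hw, ?_⟩))
      simpa using e
    · refine h2 (eq_neg_of_add_eq_zero_left (hB₂ (p ^ (B₁ + B₂ + 1)) (by omega) ⟨w, hw, ?_⟩))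
      simpa using e

end FA.QuaternionApprox

end
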